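/-
S55 / 47e-LEVEL-CUP (helper47): the cup product `H¹ × H¹ → H²` on the LEVEL cohomology of a
group with a level structure (`Profin15.LevelStr`), built from the cochain formulas of
`Cup90.Basic`, together with its naturality for restriction along level-continuous
homomorphisms and for equivariant coefficient maps, and graded commutativity.

Consumers: the isotropy count of 47-S2 (global side, `Isotropy.lean` of this directory) and the
local Hilbert pairing 47d.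
-/
import Fermat.Agent.S55.Cup90.Cohomology
import Fermat.Agent.S55.Profin15.Restriction

set_option autoImplicit false

universe u

open CategoryTheory groupCohomology

namespace Fermat.Agent.S55.LevelCup47

open Fermat.Agent.S55.Profin15 Fermat.Agent.S55.Cup90

variable {k G : Type u} [CommRing k] [Group G] (𝒰 : LevelStr G)
variable {A B C : Rep.{u} k G} (φ : Pairing A B C)

/-! ### Level constancy of the cochain cup products -/

/-- `a ∪ b` is a level `2`-cochain when `a`, `b` are level `1`-cochains and `B` is smooth. -/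
lemma isConst₂_cup₁₁ {𝒰 : LevelStr G} (hB : 𝒰.IsSmooth B) {a : G → A} {b : G → B}
    (ha : 𝒰.IsConst₁ a) (hb : 𝒰.IsConst₁ b) : 𝒰.IsConst₂ (cup₁₁ φ a b) := by
  obtain ⟨V, hV, hfix⟩ := hB.exists_level_of_finite hb.finite_range
  obtain ⟨W, hW, hle, hca⟩ := ha.exists_le hV
  obtain ⟨W', hW', hle', hcb⟩ := hb.exists_le hW
  refine ⟨W', hW', fun g g' s s' hs hs' => ?_⟩
  simp only [cup₁₁_apply]
  rw [hca g s (hle' hs), hcb g' s' hs', map_mul, Module.End.mul_apply,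
    hfix (b g') ⟨g', rfl⟩ s (hle (hle' hs))]

/-- `x ∪ b` is a level `1`-cochain when `b` is. -/
lemma isConst₁_cup₀₁ {𝒰 : LevelStr G} (x : A) {b : G → B} (hb : 𝒰.IsConst₁ b) :
    𝒰.IsConst₁ (cup₀₁ φ x b) :=
  hb.comp (φ.toLin x)

/-- `a ∪ y` is a level `1`-cochain when `a` is and `B` is smooth. -/
lemma isConst₁_cup₁₀ {𝒰 : LevelStr G} (hB : 𝒰.IsSmooth B) {a : G → A} (ha : 𝒰.IsConst₁ a)
    (y : B) : 𝒰.IsConst₁ (cup₁₀ φ a y) := by
  obtain ⟨V, hV, hfix⟩ := hB y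
  obtain ⟨W, hW, hle, hca⟩ := ha.exists_le hV
  refine ⟨W, hW, fun g s hs => ?_⟩
  simp only [cup₁₀_apply]
  rw [hca g s hs, map_mul, Module.End.mul_apply, hfix s (hle hs)]

/-- the pointwise product `g ↦ φ (a g) (b g)` of level cochains is a level cochain -/
lemma isConst₁_pointwise {𝒰 : LevelStr G} {a : G → A} {b : G → B} (ha : 𝒰.IsConst₁ a)
    (hb : 𝒰.IsConst₁ b) : 𝒰.IsConst₁ (fun g => φ.toLin (a g) (b g)) := by
  obtain ⟨V, hV, hca⟩ := ha
  obtain ⟨W, hW, hle, hcb⟩ := hb.exists_le hV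
  exact ⟨W, hW, fun g s hs => by
    show φ.toLin (a (g * s)) (b (g * s)) = φ.toLin (a g) (b g)
    rw [hca g s (hle hs), hcb g s hs]⟩

/-! ### The cup product on level cocycles and level cohomology -/

variable {𝒰}

/-- The cup product on level `1`-cocycles, valued in level `2`-cocycles. -/
noncomputable def cupZ11 (hB : 𝒰.IsSmooth B) :
    ↥(𝒰.Z₁ A) →ₗ[k] ↥(𝒰.Z₁ B) →ₗ[k] ↥(𝒰.Z₂ C) :=
  LinearMap.mk₂ k
    (fun a b => ⟨cup₁₁ φ a.1 b.1,
      cup₁₁_mem_cocycles₂ φ a.2.1 b.2.1, isConst₂_cup₁₁ φ hB a.2.2 b.2.2⟩)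
    (fun a a' b => Subtype.ext (funext fun x => by
      simp only [cup₁₁_apply, Submodule.coe_add, Pi.add_apply, map_add, LinearMap.add_apply]))
    (fun c a b => Subtype.ext (funext fun x => by
      simp only [cup₁₁_apply, Submodule.coe_smul, Pi.smul_apply, map_smul,
        LinearMap.smul_apply]))
    (fun a b b' => Subtype.ext (funext fun x => by
      simp only [cup₁₁_apply, Submodule.coe_add, Pi.add_apply, map_add]))
    (fun c a b => Subtype.ext (funext fun x => by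
      simp only [cup₁₁_apply, Submodule.coe_smul, Pi.smul_apply, map_smul]))

@[simp] lemma cupZ11_coe (hB : 𝒰.IsSmooth B) (a : ↥(𝒰.Z₁ A)) (b : ↥(𝒰.Z₁ B)) :
    ((cupZ11 φ hB a b : ↥(𝒰.Z₂ C)) : G × G → C) = cup₁₁ φ a.1 b.1 := rfl

lemma H1π_surjective (M : Rep.{u} k G) : Function.Surjective (𝒰.H1π M) :=
  Submodule.mkQ_surjective _

lemma H2π_surjective (M : Rep.{u} k G) : Function.Surjective (𝒰.H2π M) :=
  Submodule.mkQ_surjective _

lemma mem_ker_H1π_iff {M : Rep.{u} k G} (x : ↥(𝒰.Z₁ M)) :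
    x ∈ LinearMap.ker (𝒰.H1π M) ↔ ∃ y : M, (d₀₁ M).hom y = (x : G → M) := by
  rw [LinearMap.mem_ker, LevelStr.H1π_eq_zero_iff]
  exact Iff.rfl

/-- **Cup product** `H¹(𝒰; A) × H¹(𝒰; B) → H²(𝒰; C)` on level cohomology, attached to a
pairing `A × B → C` (with `B` smooth). -/
noncomputable def cupH11 (hB : 𝒰.IsSmooth B) : 𝒰.H1 A →ₗ[k] 𝒰.H1 B →ₗ[k] 𝒰.H2 C :=
  descend₂ (𝒰.H1π A) (H1π_surjective A) (𝒰.H1π B) (H1π_surjective B)
    ((cupZ11 φ hB).compr₂ (𝒰.H2π C))
    (fun a ha b => by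
      obtain ⟨x, hx⟩ := (mem_ker_H1π_iff a).1 ha
      simp only [LinearMap.compr₂_apply]
      refine (LevelStr.H2π_eq_zero_iff 𝒰 C _).2
        ((𝒰.mem_B₂_iff C _).2 ⟨cup₀₁ φ x b.1, isConst₁_cup₀₁ φ x b.2.2, ?_⟩)
      have h1 := cup₁₁_d₀₁_left φ x b.2.1
      rw [hx] at h1
      exact h1.symm)
    (fun a b hb => by
      obtain ⟨y, hy⟩ := (mem_ker_H1π_iff b).1 hb
      simp only [LinearMap.compr₂_apply]
      refine (LevelStr.H2π_eq_zero_iff 𝒰 C _).2
        ((𝒰.mem_B₂_iff C _).2 ⟨-cup₁₀ φ a.1 y, ?_, ?_⟩)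
      · obtain ⟨V, hV, h⟩ := isConst₁_cup₁₀ φ hB a.2.2 y
        exact ⟨V, hV, fun g s hs => by simp only [Pi.neg_apply, h g s hs]⟩
      · have h1 := cup₁₁_d₀₁_right φ a.2.1 y
        rw [hy] at h1
        rw [map_neg]
        exact h1.symm)

@[simp] lemma cupH11_π (hB : 𝒰.IsSmooth B) (a : ↥(𝒰.Z₁ A)) (b : ↥(𝒰.Z₁ B)) :
    cupH11 φ hB (𝒰.H1π A a) (𝒰.H1π B b) = 𝒰.H2π C (cupZ11 φ hB a b) := by
  rw [cupH11, descend₂_apply]
  rfl

/-! ### Naturality for restriction along level-continuous homomorphisms -/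

section Restriction

variable {H : Type u} [Group H] {𝒱 : LevelStr H} {f : H →* G}

/-- Restriction of a pairing along a group homomorphism (same bilinear map). -/
def pairingRes (φ : Pairing A B C) (f : H →* G) :
    Pairing (Rep.res f A) (Rep.res f B) (Rep.res f C) where
  toLin := φ.toLin
  map_smul' h a b := φ.map_smul' (f h) a b

@[simp] lemma res_toLin_apply (f : H →* G) (a : A) (b : B) :
    (pairingRes φ f).toLin a b = φ.toLin a b := rfl

lemma pull₂_cup₁₁ (f : H →* G) (a : G → A) (b : G → B) :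
    LevelStr.pull₂ f C (cup₁₁ φ a b) =
      cup₁₁ (pairingRes φ f) (LevelStr.pull₁ f A a) (LevelStr.pull₁ f B b) := rfl

/-- **Restriction commutes with the level cup product.** -/
theorem res₂_cupH11 (hf : LevelStr.IsContinuous 𝒱 𝒰 f) (hB : 𝒰.IsSmooth B)
    (x : 𝒰.H1 A) (y : 𝒰.H1 B) :
    hf.res₂ C (cupH11 φ hB x y) =
      cupH11 (pairingRes φ f) (hf.isSmooth B hB) (hf.res₁ A x) (hf.res₁ B y) := by
  obtain ⟨a, rfl⟩ := H1π_surjective A x
  obtain ⟨b, rfl⟩ := H1π_surjective B y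
  rw [cupH11_π, LevelStr.IsContinuous.res₂_H2π, LevelStr.IsContinuous.res₁_H1π,
    LevelStr.IsContinuous.res₁_H1π, cupH11_π]
  rfl

end Restriction

/-! ### Naturality in the coefficients -/

section Coefficients

variable {A' B' C' : Rep.{u} k G} (φ' : Pairing A' B' C')

/-- **Coefficient maps commute with the level cup product.** -/
theorem H2map_cupH11 (hB : 𝒰.IsSmooth B) (hB' : 𝒰.IsSmooth B')
    (α : A →ₗ[k] A') (hα : LevelStr.IsEquivariant α)
    (β : B →ₗ[k] B') (hβ : LevelStr.IsEquivariant β)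
    (γ : C →ₗ[k] C') (hγ : LevelStr.IsEquivariant γ)
    (hcomp : ∀ a b, γ (φ.toLin a b) = φ'.toLin (α a) (β b))
    (x : 𝒰.H1 A) (y : 𝒰.H1 B) :
    𝒰.H2map γ hγ (cupH11 φ hB x y) =
      cupH11 φ' hB' (𝒰.H1map α hα x) (𝒰.H1map β hβ y) := by
  obtain ⟨a, rfl⟩ := H1π_surjective A x
  obtain ⟨b, rfl⟩ := H1π_surjective B y
  rw [cupH11_π, LevelStr.H2map_H2π, LevelStr.H1map_H1π, LevelStr.H1map_H1π, cupH11_π]
  congr 1
  apply Subtype.ext
  funext p
  simp only [LevelStr.coe_Z₂map, LevelStr.comp₂_apply, cupZ11_coe, cup₁₁_apply,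
    LevelStr.coe_Z₁map, LevelStr.comp₁_apply, hcomp, hβ p.1]

end Coefficients

/-! ### Graded commutativity -/

/-- On cochains: `a ∪ b + b ∪' a = - d (g ↦ φ (a g) (b g))` for `1`-cocycles `a`, `b`, where
`∪'` is the cup product for the flipped pairing. -/
theorem cup₁₁_add_flip {a : G → A} {b : G → B} (ha : a ∈ cocycles₁ A) (hb : b ∈ cocycles₁ B) :
    cup₁₁ φ a b + cup₁₁ φ.flip b a = -(d₁₂ C).hom (fun g => φ.toLin (a g) (b g)) := by
  rw [mem_cocycles₁_iff] at ha hb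
  funext x
  obtain ⟨g, g'⟩ := x
  simp only [Pi.add_apply, cup₁₁_apply, Pairing.flip_toLin_apply, d₁₂_hom_apply, Pi.neg_apply,
    ha g g', hb g g', map_add, LinearMap.add_apply]
  rw [← φ.map_rho]
  abel

/-- **Graded commutativity** of the level cup product in degree `(1,1)`. -/
theorem cupH11_flip (hA : 𝒰.IsSmooth A) (hB : 𝒰.IsSmooth B) (x : 𝒰.H1 A) (y : 𝒰.H1 B) :
    cupH11 φ hB x y = -cupH11 φ.flip hA y x := by
  obtain ⟨a, rfl⟩ := H1π_surjective A x
  obtain ⟨b, rfl⟩ := H1π_surjective B y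
  rw [cupH11_π, cupH11_π, eq_neg_iff_add_eq_zero, ← map_add, LevelStr.H2π_eq_zero_iff]
  refine (𝒰.mem_B₂_iff C _).2 ⟨-(fun g => φ.toLin (a.1 g) (b.1 g)), ?_, ?_⟩
  · obtain ⟨V, hV, h⟩ := isConst₁_pointwise φ a.2.2 b.2.2
    exact ⟨V, hV, fun g s hs => by simp only [Pi.neg_apply, h g s hs]⟩
  · rw [map_neg, ← cup₁₁_add_flip φ a.2.1 b.2.1]
    rfl

end Fermat.Agent.S55.LevelCup47
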