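/-
S55 / 47e-LEVEL-CUP (helper47): ISOTROPY GLUE.

Global group `G` with level structure `𝒰`; a finite family of "local" groups `H w` with level
structures `𝒱 w` and level-continuous homomorphisms `f w : H w →* G`; linear forms
`Λ w : H²(𝒱 w; res C) → k` ("local invariants") satisfying the RECIPROCITY LAW
`∑ w, Λ w (res_w z) = 0` for every global class `z ∈ H²(𝒰; C)`.

* `locPair φ hf Λ hB w` : the local bilinear form `β_w (x, y) = Λ_w (x ∪ y)` on
  `H¹(𝒱 w; res A) × H¹(𝒱 w; res B)`.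
* `sum_locPair_res_eq_zero` : `∑ w, β_w (res_w x, res_w y) = 0` for global `x, y`
  (the image of the global `H¹` is isotropic).
* `le_finrank_sha1` : the COUNT (c) of 47-S2 in level-cohomology form: if the `β_w` are
  left-nondegenerate, `∑ w, dim H¹(𝒱 w; res A) ≤ 2 d` and `d + c ≤ dim H¹(𝒰; A)` then
  `c ≤ dim ⨅ w, ker (res_w : H¹(𝒰; A) → H¹(𝒱 w; res A))`.
-/
import Fermat.Agent.S55.LevelCup47.Cup
import Fermat.Agent.S55.S2Hilbert47.Isotropy

set_option autoImplicit false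

universe u

open CategoryTheory groupCohomology Module

namespace Fermat.Agent.S55.LevelCup47.Iso

open Fermat.Agent.S55.Profin15 Fermat.Agent.S55.Cup90 Fermat.Agent.S55.LevelCup47

section Ring

variable {k G : Type u} [CommRing k] [Group G] {𝒰 : LevelStr G}
variable {A B C : Rep.{u} k G} (φ : Pairing A B C)
variable {ι : Type*} {H : ι → Type u} [∀ w, Group (H w)] {𝒱 : ∀ w, LevelStr (H w)}
  {f : ∀ w, H w →* G} (hf : ∀ w, LevelStr.IsContinuous (𝒱 w) 𝒰 (f w))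
  (Λ : ∀ w, (𝒱 w).H2 (Rep.res (f w) C) →ₗ[k] k)

/-- The local bilinear form `β_w (x, y) = Λ_w (x ∪ y)`. -/
noncomputable def locPair (hB : 𝒰.IsSmooth B) (w : ι) :
    (𝒱 w).H1 (Rep.res (f w) A) →ₗ[k] (𝒱 w).H1 (Rep.res (f w) B) →ₗ[k] k :=
  (cupH11 (pairingRes φ (f w)) ((hf w).isSmooth B hB)).compr₂ (Λ w)

@[simp] lemma locPair_apply (hB : 𝒰.IsSmooth B) (w : ι)
    (x : (𝒱 w).H1 (Rep.res (f w) A)) (y : (𝒱 w).H1 (Rep.res (f w) B)) :
    locPair φ hf Λ hB w x y = Λ w (cupH11 (pairingRes φ (f w)) ((hf w).isSmooth B hB) x y) := rfl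

/-- the local form on restrictions of global classes is `Λ_w ∘ res_w` of the global cup -/
lemma locPair_res (hB : 𝒰.IsSmooth B) (w : ι) (x : 𝒰.H1 A) (y : 𝒰.H1 B) :
    locPair φ hf Λ hB w ((hf w).res₁ A x) ((hf w).res₁ B y) =
      Λ w ((hf w).res₂ C (cupH11 φ hB x y)) := by
  rw [locPair_apply, res₂_cupH11]

/-- **Isotropy from reciprocity**: the sum of the local forms vanishes on pairs of global
classes. -/
theorem sum_locPair_res_eq_zero [Fintype ι] (hB : 𝒰.IsSmooth B)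
    (hrec : ∀ z : 𝒰.H2 C, ∑ w, Λ w ((hf w).res₂ C z) = 0) (x : 𝒰.H1 A) (y : 𝒰.H1 B) :
    ∑ w, locPair φ hf Λ hB w ((hf w).res₁ A x) ((hf w).res₁ B y) = 0 := by
  simp only [locPair_res]
  exact hrec _

end Ring

section Field

variable {k G : Type u} [Field k] [Group G] {𝒰 : LevelStr G}
variable {A C : Rep.{u} k G} (φ : Pairing A A C)
variable {ι : Type*} [Fintype ι] [DecidableEq ι] {H : ι → Type u} [∀ w, Group (H w)]
  {𝒱 : ∀ w, LevelStr (H w)}
  {f : ∀ w, H w →* G} (hf : ∀ w, LevelStr.IsContinuous (𝒱 w) 𝒰 (f w))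
  (Λ : ∀ w, (𝒱 w).H2 (Rep.res (f w) C) →ₗ[k] k)

/-- **The count (c) of 47-S2 in level-cohomology form.**  If the local forms
`β_w = Λ_w ∘ ∪` are left-nondegenerate, reciprocity holds, `∑ w, dim H¹_w ≤ 2 d` and
`d + c ≤ dim H¹(𝒰; A)`, then the Tate–Shafarevich kernel
`⨅ w, ker (res_w : H¹(𝒰; A) → H¹(𝒱 w; res A))` has dimension at least `c`. -/
theorem le_finrank_sha1 (hA : 𝒰.IsSmooth A)
    [FiniteDimensional k (𝒰.H1 A)]
    [∀ w, FiniteDimensional k ((𝒱 w).H1 (Rep.res (f w) A))]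
    (hnd : ∀ w, (locPair φ hf Λ hA w).SeparatingLeft)
    (hrec : ∀ z : 𝒰.H2 C, ∑ w, Λ w ((hf w).res₂ C z) = 0) {d c : ℕ}
    (hW : ∑ w, finrank k ((𝒱 w).H1 (Rep.res (f w) A)) ≤ 2 * d)
    (hB : d + c ≤ finrank k (𝒰.H1 A)) :
    c ≤ finrank k (⨅ w, LinearMap.ker ((hf w).res₁ A) : Submodule k (𝒰.H1 A)) := by
  have h := S2Hilbert47.Isotropy.le_finrank_ker_of_isotropic_pi (k := k) (ι := ι)
    (W := fun w => (𝒱 w).H1 (Rep.res (f w) A)) (B := 𝒰.H1 A)
    (fun w => locPair φ hf Λ hA w) hnd (fun w => (hf w).res₁ A)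
    (fun a b => sum_locPair_res_eq_zero φ hf Λ hA hrec a b) hW hB
  exact h

end Field

end Fermat.Agent.S55.LevelCup47.Iso
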