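/-
S55 / 47e-LEVEL-CUP (helper47): WRAPPER from cochain-level "symbol is not a level coboundary"
statements (47d: `LocHilbert21`, `KummerCarry96`) to the left-nondegeneracy hypothesis `hnd` of
`LevelCup47.Iso.le_finrank_sha1` / `CountWire96`.

* `separatingLeft_of_symbol` : if `Λ : H²(𝒱; C) → k` is injective and for every level `1`-cocycle
  `a` with nonzero class there is a level `1`-cocycle `b` with `a ∪ b ∉ B²(𝒱; C)`, then
  `(x, y) ↦ Λ (x ∪ y)` is left-nondegenerate.
* `not_mem_B₂_of_push` : to show `c ∉ B²(𝒱; C)` it suffices to show that the push-forward `ι ∘ c`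
  along an equivariant additive map `ι : C → Ω` into a BIG module (possibly a representation over
  another ring, e.g. `Ω = (PadicAlgCl q)ˣ` additively, over `ℤ`) is not `d` of a level-constant
  `1`-cochain.
* `locPair_separatingLeft_of_symbol` : the same in the literal `Iso.locPair` shape.
* `H1π_eq_zero_iff_of_trivial` : for a trivial action a level `1`-cocycle has zero class iff it
  is zero.
-/
import Fermat.Agent.S55.LevelCup47.Isotropy

set_option autoImplicit false

universe u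

open CategoryTheory groupCohomology

namespace Fermat.Agent.S55.LevelCup47.Symbol

open Fermat.Agent.S55.Profin15 Fermat.Agent.S55.Cup90 Fermat.Agent.S55.LevelCup47

variable {k Γ : Type u} [CommRing k] [Group Γ] {𝒱 : LevelStr Γ}
variable {A B C : Rep.{u} k Γ} (φ : Pairing A B C)

/-- **Wrapper**: injective invariant + "for every nonzero class `[a]` some symbol `a ∪ b` is not
a level coboundary" ⟹ left-nondegeneracy of `(x, y) ↦ Λ (x ∪ y)`. -/
theorem separatingLeft_of_symbol (hB : 𝒱.IsSmooth B) (Λ : 𝒱.H2 C →ₗ[k] k)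
    (hΛ : Function.Injective Λ)
    (hsym : ∀ a : ↥(𝒱.Z₁ A), 𝒱.H1π A a ≠ 0 →
      ∃ b : ↥(𝒱.Z₁ B), cup₁₁ φ a.1 b.1 ∉ 𝒱.B₂ C) :
    ((cupH11 φ hB).compr₂ Λ).SeparatingLeft := by
  intro x hx
  by_contra hx0
  obtain ⟨a, rfl⟩ := H1π_surjective A x
  obtain ⟨b, hb⟩ := hsym a hx0
  apply hb
  have h1 : Λ (cupH11 φ hB (𝒱.H1π A a) (𝒱.H1π B b)) = 0 := hx (𝒱.H1π B b)
  rw [cupH11_π] at h1
  have h2 : 𝒱.H2π C (cupZ11 φ hB a b) = 0 := hΛ (by rw [h1, map_zero])
  exact (LevelStr.H2π_eq_zero_iff 𝒱 C _).1 h2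

/-- To prove that a level `2`-cochain `c` with values in `C` is not a level coboundary it is
enough to prove it after pushing forward along an equivariant additive map into another
representation `Ω` (possibly over another ring). -/
theorem not_mem_B₂_of_push {k' : Type u} [CommRing k'] {Ω : Rep.{u} k' Γ} (ι : C →+ Ω)
    (hι : ∀ (g : Γ) (c : C), ι (C.ρ g c) = Ω.ρ g (ι c)) {c : Γ × Γ → C}
    (h : ¬ ∃ x : Γ → Ω, 𝒱.IsConst₁ x ∧
      ∀ g h : Γ, Ω.ρ g (x h) - x (g * h) + x g = ι (c (g, h))) :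
    c ∉ 𝒱.B₂ C := by
  intro hc
  obtain ⟨y, hy, rfl⟩ := (𝒱.mem_B₂_iff C c).1 hc
  refine h ⟨fun g => ι (y g), hy.comp ι, fun g h => ?_⟩
  simp only [d₁₂_hom_apply, map_add, map_sub, hι]

/-- for a trivial action, a level `1`-cocycle has zero class iff it is zero -/
theorem H1π_eq_zero_iff_of_trivial (htriv : ∀ (g : Γ) (a : A), A.ρ g a = a) (a : ↥(𝒱.Z₁ A)) :
    𝒱.H1π A a = 0 ↔ a = 0 := by
  rw [LevelStr.H1π_eq_zero_iff]
  constructor
  · rintro ⟨m, hm⟩
    apply Subtype.ext
    rw [← hm]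
    funext g
    simp [d₀₁_hom_apply, htriv]
  · rintro rfl
    exact Submodule.zero_mem _

section Family

variable {G : Type u} [Group G] {𝒰 : LevelStr G} {A' B' C' : Rep.{u} k G} (φ' : Pairing A' B' C')
variable {ι : Type*} {H : ι → Type u} [∀ w, Group (H w)] {𝒱w : ∀ w, LevelStr (H w)}
  {f : ∀ w, H w →* G} (hf : ∀ w, LevelStr.IsContinuous (𝒱w w) 𝒰 (f w))
  (Λ : ∀ w, (𝒱w w).H2 (Rep.res (f w) C') →ₗ[k] k)

/-- the wrapper in the literal `Iso.locPair` shape -/
theorem locPair_separatingLeft_of_symbol (hB : 𝒰.IsSmooth B') (w : ι)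
    (hΛ : Function.Injective (Λ w))
    (hsym : ∀ a : ↥((𝒱w w).Z₁ (Rep.res (f w) A')), (𝒱w w).H1π _ a ≠ 0 →
      ∃ b : ↥((𝒱w w).Z₁ (Rep.res (f w) B')),
        cup₁₁ (pairingRes φ' (f w)) a.1 b.1 ∉ (𝒱w w).B₂ (Rep.res (f w) C')) :
    (Iso.locPair φ' hf Λ hB w).SeparatingLeft :=
  separatingLeft_of_symbol (pairingRes φ' (f w)) ((hf w).isSmooth B' hB) (Λ w) hΛ hsym

end Family

/-! ### The multiplication pairing on trivial coefficients -/

section Mul

variable (k Γ)

/-- the multiplication pairing `k × k → k` on the trivial representation -/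
def mulPairing : Pairing (Rep.trivial k Γ k) (Rep.trivial k Γ k) (Rep.trivial k Γ k) where
  toLin := LinearMap.mul k k
  map_smul' _ _ _ := rfl

variable {k Γ}

@[simp] lemma mulPairing_toLin_apply (a b : k) :
    (mulPairing k Γ).toLin (a : Rep.trivial k Γ k) (b : Rep.trivial k Γ k) = a * b := rfl

@[simp] lemma cup₁₁_mulPairing_apply (a b : Γ → Rep.trivial k Γ k) (x : Γ × Γ) :
    cup₁₁ (mulPairing k Γ) a b x = (a x.1 : k) * (b x.2 : k) := rfl

/-- the trivial representation is smooth for every level structure -/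
lemma isSmooth_trivial (𝒱 : LevelStr Γ) : 𝒱.IsSmooth (Rep.trivial k Γ k) := by
  intro m
  obtain ⟨U, hU⟩ := 𝒱.nonempty
  exact ⟨U, hU, fun _ _ => rfl⟩

end Mul

end Fermat.Agent.S55.LevelCup47.Symbol
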