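/-
S55 / 47e-LEVEL-CUP (helper47): TRANSPORT of the cochain-level symbol hypothesis `hsym` of
`LevelCup47.Symbol.separatingLeft_of_symbol` along a group isomorphism `e : Γ' ≃* Γ` which is a
homeomorphism for the level structures (level-continuous in both directions).

Use: 47d proves `hsym` over `Γ = Gal(Ω/K_w)` (levels = fixing subgroups of finite extensions);
the count wire needs it over `Γ' = ker (π ∘ r_q) ≤ G_{ℚ_q}` with the restricted Prelude levels.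
-/
import Fermat.Agent.S55.LevelCup47.Symbol

set_option autoImplicit false

universe u

open CategoryTheory groupCohomology

namespace Fermat.Agent.S55.LevelCup47.Transport

open Fermat.Agent.S55.Profin15 Fermat.Agent.S55.Cup90 Fermat.Agent.S55.LevelCup47

variable {k Γ Γ' : Type u} [CommRing k] [Group Γ] [Group Γ'] (e : Γ' ≃* Γ)
variable {𝒱 : LevelStr Γ} {𝒱' : LevelStr Γ'}
variable {A B C : Rep.{u} k Γ} (φ : Pairing A B C)

/-- push a level `1`-cocycle of `Γ'` (coefficients `res e A`) forward to `Γ` along `e` -/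
lemma push_mem_Z₁ (he' : LevelStr.IsContinuous 𝒱 𝒱' e.symm.toMonoidHom) (M : Rep.{u} k Γ)
    {a' : Γ' → Rep.res e.toMonoidHom M} (ha' : a' ∈ 𝒱'.Z₁ (Rep.res e.toMonoidHom M)) :
    (fun g : Γ => (a' (e.symm g) : M)) ∈ 𝒱.Z₁ M := by
  refine ⟨?_, ?_⟩
  · have h := (mem_cocycles₁_iff (A := Rep.res e.toMonoidHom M) a').1 ha'.1
    refine (mem_cocycles₁_iff (A := M) _).2 ?_
    intro g h'
    have := h (e.symm g) (e.symm h')
    simp only [← map_mul] at this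
    show (a' (e.symm (g * h')) : M) = M.ρ g (a' (e.symm h')) + a' (e.symm g)
    rw [this]
    simp
  · exact he'.isConst₁ ha'.2

/-- pull-back and push-forward along `e` are inverse on cochains -/
lemma pull₂_push (M : Rep.{u} k Γ) (c : Γ × Γ → M) :
    (fun x : Γ × Γ => (LevelStr.pull₂ e.toMonoidHom M c (e.symm x.1, e.symm x.2) : M)) = c := by
  funext x
  simp

/-- a level coboundary of `Γ'` pushes forward to a level coboundary of `Γ` -/
lemma push_mem_B₂ (he' : LevelStr.IsContinuous 𝒱 𝒱' e.symm.toMonoidHom) (M : Rep.{u} k Γ)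
    {c : Γ × Γ → M} (hc : LevelStr.pull₂ e.toMonoidHom M c ∈ 𝒱'.B₂ (Rep.res e.toMonoidHom M)) :
    c ∈ 𝒱.B₂ M := by
  obtain ⟨y, hy, hyc⟩ := (𝒱'.mem_B₂_iff _ _).1 hc
  refine (𝒱.mem_B₂_iff M c).2 ⟨fun g => (y (e.symm g) : M), he'.isConst₁ hy, ?_⟩
  funext x
  obtain ⟨g, h⟩ := x
  have := congrFun hyc (e.symm g, e.symm h)
  simp only [d₁₂_hom_apply, LevelStr.pull₂_apply, MulEquiv.coe_toMonoidHom,
    MulEquiv.apply_symm_apply] at this ⊢
  rw [← this, ← map_mul]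
  simp

/-- **Transport of `hsym` along a level-homeomorphic group isomorphism.** -/
theorem hsym_transport (he : LevelStr.IsContinuous 𝒱' 𝒱 e.toMonoidHom)
    (he' : LevelStr.IsContinuous 𝒱 𝒱' e.symm.toMonoidHom)
    (hsym : ∀ a : ↥(𝒱.Z₁ A), 𝒱.H1π A a ≠ 0 → ∃ b : ↥(𝒱.Z₁ B), cup₁₁ φ a.1 b.1 ∉ 𝒱.B₂ C) :
    ∀ a' : ↥(𝒱'.Z₁ (Rep.res e.toMonoidHom A)), 𝒱'.H1π _ a' ≠ 0 →
      ∃ b' : ↥(𝒱'.Z₁ (Rep.res e.toMonoidHom B)),
        cup₁₁ (pairingRes φ e.toMonoidHom) a'.1 b'.1 ∉ 𝒱'.B₂ (Rep.res e.toMonoidHom C) := by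
  intro a' ha'
  -- push `a'` forward
  let a : ↥(𝒱.Z₁ A) := ⟨fun g => (a'.1 (e.symm g) : A), push_mem_Z₁ e he' A a'.2⟩
  have hpull : LevelStr.pull₁ e.toMonoidHom A a.1 = a'.1 := by
    funext g
    simp [a]
  have ha : 𝒱.H1π A a ≠ 0 := by
    intro h0
    apply ha'
    rw [LevelStr.H1π_eq_zero_iff] at h0 ⊢
    have := LevelStr.pull₁_mem_coboundaries₁ e.toMonoidHom A h0
    rwa [hpull] at this
  obtain ⟨b, hb⟩ := hsym a ha
  refine ⟨⟨LevelStr.pull₁ e.toMonoidHom B b.1, he.pull₁_mem_Z₁ B b.2⟩, fun hmem => hb ?_⟩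
  apply push_mem_B₂ e he' C
  rw [pull₂_cup₁₁, hpull]
  exact hmem

end Fermat.Agent.S55.LevelCup47.Transport
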