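/-
S55 / 47i-HND-INST (helper47): the left-nondegeneracy hypothesis `hnd` of the count wire
(`LevelCup47.Iso.le_finrank_sha1`, `CountWire96.finrank_sha2_le_finrank_sha1`) transported along
level-homeomorphic group isomorphisms.

* `hsym_of_exists_cupH11_ne_zero` : the class-level statement "`x ≠ 0 ⟹ ∃ y, x ∪ y ≠ 0`"
  (e.g. `LocHilbert21.exists_cupH11_ne_zero`) gives the cochain-level hypothesis `hsym`.
* `isContinuous_of_levelLE`, `isContinuous_symm_of_levelLE` : a group isomorphism `e : Γ' ≃* Γ`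
  with `𝒱' ≈ 𝒱.comap e` (`KummerBr95.LevelEquiv`) is level-continuous in both directions.
* `separatingLeft_of_mulEquiv` : nondegeneracy over `(Γ, 𝒱)` ⟹ nondegeneracy of `Λ' ∘ ∪` over
  `(Γ', 𝒱')` for every injective `Λ'`.
-/
import Fermat.Agent.S55.LevelCup47.Transport
import Fermat.Agent.S55.KummerBr95.LevelEquiv

set_option autoImplicit false

universe u

open CategoryTheory groupCohomology

namespace Fermat.Agent.S55.LevelCup47.HndInst

open Fermat.Agent.S55.Profin15 Fermat.Agent.S55.Cup90 Fermat.Agent.S55.LevelCup47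
  Fermat.Agent.S55.KummerBr95

variable {k Γ Γ' : Type u} [CommRing k] [Group Γ] [Group Γ']
variable {𝒱 : LevelStr Γ} {𝒱' : LevelStr Γ'}
variable {A B C : Rep.{u} k Γ} (φ : Pairing A B C)

/-- class-level nondegeneracy gives the cochain-level hypothesis `hsym` -/
theorem hsym_of_exists_cupH11_ne_zero (hB : 𝒱.IsSmooth B)
    (hnd : ∀ x : 𝒱.H1 A, x ≠ 0 → ∃ y : 𝒱.H1 B, cupH11 φ hB x y ≠ 0) :
    ∀ a : ↥(𝒱.Z₁ A), 𝒱.H1π A a ≠ 0 → ∃ b : ↥(𝒱.Z₁ B), cup₁₁ φ a.1 b.1 ∉ 𝒱.B₂ C := by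
  intro a ha
  obtain ⟨y, hy⟩ := hnd _ ha
  obtain ⟨b, rfl⟩ := H1π_surjective B y
  refine ⟨b, fun hmem => hy ?_⟩
  rw [cupH11_π]
  exact (LevelStr.H2π_eq_zero_iff 𝒱 C _).2 hmem

/-- `e` is level-continuous when `𝒱.comap e ≼ 𝒱'` -/
theorem isContinuous_of_levelLE (e : Γ' ≃* Γ) (h : LevelLE (𝒱.comap e.toMonoidHom) 𝒱') :
    LevelStr.IsContinuous 𝒱' 𝒱 e.toMonoidHom := by
  intro U hU
  obtain ⟨V', hV', hle⟩ := h (U.comap e.toMonoidHom) ⟨U, hU, rfl⟩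
  exact ⟨V', hV', hle⟩

/-- `e.symm` is level-continuous when `𝒱' ≼ 𝒱.comap e` -/
theorem isContinuous_symm_of_levelLE (e : Γ' ≃* Γ) (h : LevelLE 𝒱' (𝒱.comap e.toMonoidHom)) :
    LevelStr.IsContinuous 𝒱 𝒱' e.symm.toMonoidHom := by
  intro V' hV'
  obtain ⟨W, ⟨U, hU, rfl⟩, hle⟩ := h V' hV'
  refine ⟨U, hU, fun g hg => ?_⟩
  apply hle
  show e.toMonoidHom (e.symm.toMonoidHom g) ∈ U
  simpa using hg

/-- **Transport of nondegeneracy along a level-homeomorphic group isomorphism.** -/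
theorem separatingLeft_of_mulEquiv (e : Γ' ≃* Γ) (hequiv : LevelEquiv 𝒱' (𝒱.comap e.toMonoidHom))
    (hB : 𝒱.IsSmooth B)
    (hnd : ∀ x : 𝒱.H1 A, x ≠ 0 → ∃ y : 𝒱.H1 B, cupH11 φ hB x y ≠ 0)
    (Λ' : 𝒱'.H2 (Rep.res e.toMonoidHom C) →ₗ[k] k) (hΛ' : Function.Injective Λ') :
    ((cupH11 (pairingRes φ e.toMonoidHom)
      ((isContinuous_of_levelLE e hequiv.2).isSmooth B hB)).compr₂ Λ').SeparatingLeft :=
  Symbol.separatingLeft_of_symbol (pairingRes φ e.toMonoidHom) _ Λ' hΛ'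
    (Transport.hsym_transport e φ (isContinuous_of_levelLE e hequiv.2)
      (isContinuous_symm_of_levelLE e hequiv.1)
      (hsym_of_exists_cupH11_ne_zero φ hB hnd))

end Fermat.Agent.S55.LevelCup47.HndInst
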