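/-
S55 / 47i-HND-INST (helper47), file 2: the field `hnd` of `CountWire23.LevelInputs` on the LITERAL
carrier of the count wire.

* `injective_of_finrank_le_one` : a non-zero functional on a space of dimension `≤ 1` is injective
  (to combine with `LocalBase88.LocalBrDim`).
* `hnd_GK` : for a finite extension `K/ℚ_q` containing a primitive `p`-th root of unity, the open
  subgroup `A = G_K ≤ G_{ℚ_q}` with the levels restricted from `pullLevels (primeLocalToGlobal q)`
  and trivial coefficients `𝔽_p`: `Λ ∘ ∪` is left non-degenerate on `H¹` for every injective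
  `Λ : H² → 𝔽_p`.  [helper21's `LocHilbert21.padic_exists_cupH11_ne_zero` transported along
  `IntermediateField.fixingSubgroupEquiv K` with helper95's `restrictLevels32_equiv` and helper88's
  `LocalBase88.restrictLevels_equiv`.]
* `locForm_separatingLeft` : THE WIRE FIELD — for a level `U ∈ (globalLevels S).levels` on which
  `μ_p` is trivial and every `w = ⟨q, i⟩`, `(CountWire23.locForm p S U hU w Λ).SeparatingLeft` for
  every injective `Λ`.
-/
import Fermat.Agent.S55.LevelCup47.HndInst
import Fermat.Agent.S55.LocHilbert21.Padic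
import Fermat.Agent.S55.LocalBase88
import Fermat.Agent.S55.CountWire23.Main

set_option autoImplicit false
set_option linter.style.haveILetI false
set_option linter.unusedSectionVars false

open CategoryTheory groupCohomology ExtCitation IntermediateField Module
open Fermat.Agent.Lib.FrobeniusExists

namespace Fermat.Agent.S55.LevelCup47.HndLit

open Fermat.Agent.S55.Profin15 Fermat.Agent.S55.ShapiroLevel32 Fermat.Agent.S55.KummerBr95
open Fermat.Agent.S55.LocDual26.LocalLevels Fermat.Agent.S55.ProfinLoc80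
open Fermat.Agent.S55.Cup90 Fermat.Agent.S55.LevelCup47

attribute [local instance] isAlgebraic_Qb isAlgClosure_Qb isGalois_Qb
attribute [local instance] KummerBr95.fact_prime

/-! ### linear algebra -/

/-- a non-zero functional on a space of dimension `≤ 1` is injective -/
theorem injective_of_finrank_le_one {k V : Type*} [Field k] [AddCommGroup V] [Module k V]
    [Module.Finite k V] (h : finrank k V ≤ 1) (Λ : V →ₗ[k] k) (hΛ : Λ ≠ 0) :
    Function.Injective Λ := by
  obtain ⟨v₀, hv₀⟩ := finrank_le_one_iff.1 h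
  rw [injective_iff_map_eq_zero]
  intro v hv
  by_contra hv0
  apply hΛ
  obtain ⟨c, rfl⟩ := hv₀ v
  have hc : c ≠ 0 := by
    rintro rfl
    exact hv0 (zero_smul _ _)
  have h0 : Λ v₀ = 0 := by
    rw [map_smul, smul_eq_mul] at hv
    exact (mul_eq_zero.1 hv).resolve_left hc
  ext w
  obtain ⟨d, rfl⟩ := hv₀ w
  rw [map_smul, h0, smul_zero, LinearMap.zero_apply]

/-! ### the open subgroup `G_K` with the levels restricted from `pullLevels` -/

section GK

variable (p : ℕ) [Fact p.Prime] (q : Nat.Primes)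
  (K : IntermediateField ℚ_[(q : ℕ)] (PadicAlgCl (q : ℕ))) [FiniteDimensional ℚ_[(q : ℕ)] K]

/-- `G_K ≃* Gal(Ω/K)` -/
noncomputable def eGK : ↥(GK q K) ≃* (PadicAlgCl (q : ℕ) ≃ₐ[K] PadicAlgCl (q : ℕ)) :=
  IntermediateField.fixingSubgroupEquiv K

/-- the levels restricted from `pullLevels (primeLocalToGlobal q)` to `G_K` are the Krull levels of
`Gal(Ω/K)` -/
theorem restrict_pullLevels_equiv
    (hker : ∃ V ∈ (pullLevels (primeLocalToGlobal q)).levels, V ≤ GK q K) :
    LevelEquiv (restrictLevels (pullLevels (primeLocalToGlobal q)) (GK q K) hker)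
      ((galLevels K (PadicAlgCl (q : ℕ))).comap (eGK q K).toMonoidHom) :=
  (LocalBase88.restrictLevels_equiv ((pullLevels_equiv q).trans (localLevels_equiv q).symm)
    (GK q K) hker (isOpenSub_GK q K)).trans (restrictLevels32_equiv q K)

variable {p q K} in
/-- **`hnd` on `G_K`** (levels restricted from `pullLevels`, trivial coefficients). -/
theorem hnd_GK {ζ : K} (hζ : IsPrimitiveRoot ζ p)
    (A : Subgroup (primeLocalGaloisGroup q)) (hA : A = GK q K)
    (hker : ∃ V ∈ (pullLevels (primeLocalToGlobal q)).levels, V ≤ A)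
    (Λ : (restrictLevels (pullLevels (primeLocalToGlobal q)) A hker).H2 (triv (ZMod p) ↥A)
      →ₗ[ZMod p] ZMod p)
    (hΛ : Function.Injective Λ) :
    ((cupH11 (Symbol.mulPairing (ZMod p) ↥A)
      (Symbol.isSmooth_trivial
        (restrictLevels (pullLevels (primeLocalToGlobal q)) A hker))).compr₂ Λ).SeparatingLeft := by
  subst hA
  have h := HndInst.separatingLeft_of_mulEquiv
    (φ := LocHilbert21.mulPairing K (PadicAlgCl (q : ℕ)) p)
    (eGK q K) (restrict_pullLevels_equiv q K hker)
    (LocHilbert21.isSmooth_trivRep K (PadicAlgCl (q : ℕ)) p)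
    (fun x hx => (LocHilbert21.padic_exists_cupH11_ne_zero K hζ x hx).imp fun y hy => hy.1)
    Λ hΛ
  exact h

end GK

/-! ### the wire field -/

section Wire

open Fermat.Agent.S55.ShaTransport84 Fermat.Agent.S55.Contract34

variable {p : ℕ} [Fact p.Prime] {S : Finset Nat.Primes}

/-- **THE FIELD `hnd` OF `CountWire23.LevelInputs`**: for a level `U` on which `μ_p` is trivial, the
local form `Λ ∘ ∪` at every `w = ⟨q, i⟩` is left non-degenerate, for every injective `Λ`. -/
theorem locForm_separatingLeft (U : Subgroup GQ) [U.Normal] (hU : U ∈ (globalLevels S).levels)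
    (hmu : ∀ s ∈ U, (mu p).ρ s = 1) {J : ↥S → Type} (w : Σ q : ↥S, J q)
    (Λ : (CountWire23.locLevels S U hU w).H2 (CountWire23.kLoc p S U w) →ₗ[ZMod p] ZMod p)
    (hΛ : Function.Injective Λ) :
    (CountWire23.locForm p S U hU w Λ).SeparatingLeft := by
  obtain ⟨_, F, hF, rfl⟩ := hU
  haveI : FiniteDimensional ℚ F := hF.1
  haveI : FiniteDimensional ℚ_[((w.1 : Nat.Primes) : ℕ)] (localLevel ((w.1 : Nat.Primes) : ℕ) F) :=
    UnrBridge42.finiteDimensional_localLevel ((w.1 : Nat.Primes) : ℕ) F
  haveI : NeZero p := ⟨(Fact.out : p.Prime).ne_zero⟩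
  obtain ⟨ζ', hζ'⟩ := HasEnoughRootsOfUnity.exists_primitiveRoot
    (PadicAlgCl ((w.1 : Nat.Primes) : ℕ)) p
  have hmem : ζ' ∈ localLevel ((w.1 : Nat.Primes) : ℕ) F :=
    LocalBase88.roots_mem_localLevel w.1.1 F hmu ζ' hζ'.pow_eq_one
  have hζ : IsPrimitiveRoot (⟨ζ', hmem⟩ : localLevel ((w.1 : Nat.Primes) : ℕ) F) p :=
    IsPrimitiveRoot.coe_submonoidClass_iff.1 hζ'
  exact hnd_GK hζ _ (LocalBase88.ker_comp_eq_GK F) _ Λ hΛ

end Wire

end Fermat.Agent.S55.LevelCup47.HndLit
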