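/-
S55 / 47i-HND-INST (helper47), file 3: the field `hnd` of `CountWire23.LevelInputs` from the named
final input (A4) `ShapiroLevel32.LocalBaseDim p S` (`dim H²(G_{L_w}; 𝔽_p) ≤ 1`) and `Λ_w ≠ 0`.

* `injective_of_base` : under `LocalBaseDim p S`, a non-zero functional `Λ` on the local `H²` of
  the literal carrier at `w` is injective.
* `locForm_separatingLeft_of_base` : hence `(CountWire23.locForm p S U hU w Λ).SeparatingLeft`.
* `hnd_of_base` : all `w` at once (the first conjunct of `LevelInputs.exists_count`).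
-/
import Fermat.Agent.S55.LevelCup47.HndLit

set_option autoImplicit false

open CategoryTheory groupCohomology ExtCitation Module
open Fermat.Agent.Lib.FrobeniusExists (Qb GQ)

namespace Fermat.Agent.S55.LevelCup47.HndBase

open Fermat.Agent.S55.Profin15 Fermat.Agent.S55.ShapiroLevel32 Fermat.Agent.S55.ShaTransport84
open Fermat.Agent.S55.Contract34

variable {p : ℕ} [Fact p.Prime] {S : Finset Nat.Primes}

/-- under `LocalBaseDim`, a non-zero functional on the local `H²` at `w` is injective -/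
theorem injective_of_base (hbase : LocalBaseDim p S) (U : Subgroup GQ) [U.Normal]
    (hU : U ∈ (globalLevels S).levels) (hmu : ∀ s ∈ U, (mu p).ρ s = 1) {J : ↥S → Type}
    (w : Σ q : ↥S, J q)
    (Λ : (CountWire23.locLevels S U hU w).H2 (CountWire23.kLoc p S U w) →ₗ[ZMod p] ZMod p)
    (hΛ : Λ ≠ 0) : Function.Injective Λ := by
  have hN : ((QuotientGroup.mk' U).comp (primeLocalToGlobal w.1.1)).ker =
      U.comap (primeLocalToGlobal w.1.1) := by
    rw [← MonoidHom.comap_ker, QuotientGroup.ker_mk']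
  obtain ⟨hfin, hrk⟩ := hbase w.1 U hU hmu _ hN (hker_comp (hrS S w.1) (hker_mk' hU))
  have := hfin
  exact HndLit.injective_of_finrank_le_one hrk Λ hΛ

/-- **`hnd` at `w` from `LocalBaseDim` and `Λ ≠ 0`.** -/
theorem locForm_separatingLeft_of_base (hbase : LocalBaseDim p S) (U : Subgroup GQ) [U.Normal]
    (hU : U ∈ (globalLevels S).levels) (hmu : ∀ s ∈ U, (mu p).ρ s = 1) {J : ↥S → Type}
    (w : Σ q : ↥S, J q)
    (Λ : (CountWire23.locLevels S U hU w).H2 (CountWire23.kLoc p S U w) →ₗ[ZMod p] ZMod p)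
    (hΛ : Λ ≠ 0) : (CountWire23.locForm p S U hU w Λ).SeparatingLeft :=
  HndLit.locForm_separatingLeft U hU hmu w Λ (injective_of_base hbase U hU hmu w Λ hΛ)

/-- **the field `hnd` of `CountWire23.LevelInputs`** from `LocalBaseDim` and `∀ w, Λ w ≠ 0`. -/
theorem hnd_of_base (hbase : LocalBaseDim p S) (U : Subgroup GQ) [U.Normal]
    (hU : U ∈ (globalLevels S).levels) (hmu : ∀ s ∈ U, (mu p).ρ s = 1) {J : ↥S → Type}
    (Λ : ∀ w : Σ q : ↥S, J q,
      (CountWire23.locLevels S U hU w).H2 (CountWire23.kLoc p S U w) →ₗ[ZMod p] ZMod p)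
    (hΛ : ∀ w, Λ w ≠ 0) :
    ∀ w : Σ q : ↥S, J q, (CountWire23.locForm p S U hU w (Λ w)).SeparatingLeft :=
  fun w => locForm_separatingLeft_of_base hbase U hU hmu w (Λ w) (hΛ w)

end Fermat.Agent.S55.LevelCup47.HndBase
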