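/-
S55 / 47e-LEVEL-CUP (helper47): LOCAL ORTHOGONAL DECOMPOSITION.

Setting (think: `Γ = G_{ℚ_q}` with its level structure `𝒱`, `A = res 𝔽_p[G/U]`,
`B = res (𝔽_p[G/U] ⊗ μ_p)`, `m (e_x, e_y) = δ_{xy} e_x ⊗ χ(x)`, `tr : B → μ` the trace,
`Λ : H²(Γ, μ) → k` a local invariant):

a finite family of groups `H w` (the stabilisers in `Γ` of the cosets `g_w U`, i.e. the local
Galois groups of the completions `L_w`, `w ∣ q`) with level-continuous maps `j w : H w →* Γ`,
coefficient maps `ev w : res A → T w`, `ev' w : res B → M w` ("coefficient at the coset `g_w U`")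
and pairings `φw w : T w × T w → M w` with `ev' (m a b) = φw (ev a) (ev b)`.

`sh₁ w := H¹(ev w) ∘ res_w`, `sh₂ w := H²(ev' w) ∘ res_w` are the EASY directions of
Shapiro/Mackey.  Taking as black boxes that `(sh₁ w)_w` is bijective and `(sh₂ w)_w` is injective,
plus one-dimensionality of the local `H²`, non-vanishing of `Λ ∘ H²(tr)` on each summand and the
nondegeneracy of the cup product over each `H w` (the local Hilbert pairing, 47d), we prove that
the form `(x, y) ↦ Λ (x ∪_φ y)`, `φ = tr ∘ m`, on `H¹(𝒱; A)` is left-nondegenerate.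
This is the hypothesis `hnd` of `LevelCup47.Iso.le_finrank_sha1` for permutation modules.
-/
import Fermat.Agent.S55.LevelCup47.Isotropy

set_option autoImplicit false

universe u

open CategoryTheory groupCohomology Module

namespace Fermat.Agent.S55.LevelCup47.Ortho

open Fermat.Agent.S55.Profin15 Fermat.Agent.S55.Cup90 Fermat.Agent.S55.LevelCup47

variable {k Γ : Type u} [Field k] [Group Γ] {𝒱 : LevelStr Γ}
variable {A B μ : Rep.{u} k Γ} (m : Pairing A A B)
variable {ι : Type*} {H : ι → Type u} [∀ w, Group (H w)] {𝒱w : ∀ w, LevelStr (H w)}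
  {j : ∀ w, H w →* Γ} (hj : ∀ w, LevelStr.IsContinuous (𝒱w w) 𝒱 (j w))
  {T M : ∀ w, Rep.{u} k (H w)}
  (ev : ∀ w, Rep.res (j w) A →ₗ[k] T w) (hev : ∀ w, LevelStr.IsEquivariant (ev w))
  (ev' : ∀ w, Rep.res (j w) B →ₗ[k] M w) (hev' : ∀ w, LevelStr.IsEquivariant (ev' w))
  (φw : ∀ w, Pairing (T w) (T w) (M w))

/-- the easy direction of Shapiro in degree `1`: restrict to `H w`, then push along `ev w` -/
def sh₁ (w : ι) : 𝒱.H1 A →ₗ[k] (𝒱w w).H1 (T w) :=
  (𝒱w w).H1map (ev w) (hev w) ∘ₗ (hj w).res₁ A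

/-- the easy direction of Shapiro in degree `2`: restrict to `H w`, then push along `ev' w` -/
def sh₂ (w : ι) : 𝒱.H2 B →ₗ[k] (𝒱w w).H2 (M w) :=
  (𝒱w w).H2map (ev' w) (hev' w) ∘ₗ (hj w).res₂ B

/-- total Shapiro map in degree `1` -/
def Sh₁ : 𝒱.H1 A →ₗ[k] (∀ w, (𝒱w w).H1 (T w)) := LinearMap.pi fun w => sh₁ hj ev hev w

/-- total Shapiro map in degree `2` -/
def Sh₂ : 𝒱.H2 B →ₗ[k] (∀ w, (𝒱w w).H2 (M w)) := LinearMap.pi fun w => sh₂ hj ev' hev' w

@[simp] lemma Sh₁_apply (x : 𝒱.H1 A) (w : ι) : Sh₁ hj ev hev x w = sh₁ hj ev hev w x := rfl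
@[simp] lemma Sh₂_apply (z : 𝒱.H2 B) (w : ι) : Sh₂ hj ev' hev' z w = sh₂ hj ev' hev' w z := rfl

/-- **The Shapiro maps commute with cup products.** -/
theorem sh₂_cupH11 (hA : 𝒱.IsSmooth A) (hT : ∀ w, (𝒱w w).IsSmooth (T w))
    (hcomp : ∀ w a b, ev' w (m.toLin a b) = (φw w).toLin (ev w a) (ev w b))
    (w : ι) (x y : 𝒱.H1 A) :
    sh₂ hj ev' hev' w (cupH11 m hA x y) =
      cupH11 (φw w) (hT w) (sh₁ hj ev hev w x) (sh₁ hj ev hev w y) := by
  simp only [sh₂, sh₁, LinearMap.comp_apply]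
  rw [res₂_cupH11 m (hj w) hA]
  exact H2map_cupH11 (pairingRes m (j w)) (φw w) ((hj w).isSmooth A hA) (hT w)
    (ev w) (hev w) (ev w) (hev w) (ev' w) (hev' w) (hcomp w) _ _

section Main

variable (tr : B →ₗ[k] μ) (htr : LevelStr.IsEquivariant tr) (Λ : 𝒱.H2 μ →ₗ[k] k)
  (φ : Pairing A A μ)

/-- `H²(tr)` of the `m`-cup product is the `φ`-cup product when `φ = tr ∘ m`. -/
theorem H2map_tr_cupH11 (hA : 𝒱.IsSmooth A) (hφ : ∀ a b, φ.toLin a b = tr (m.toLin a b))
    (x y : 𝒱.H1 A) : 𝒱.H2map tr htr (cupH11 m hA x y) = cupH11 φ hA x y := by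
  have h := H2map_cupH11 m φ hA hA LinearMap.id LevelStr.isEquivariant_id LinearMap.id
    LevelStr.isEquivariant_id tr htr (fun a b => (hφ a b).symm) x y
  rw [h, LevelStr.H1map_id, LevelStr.H1map_id]

variable [DecidableEq ι]

/-- **Local orthogonal decomposition ⇒ left-nondegeneracy.**  See the file header. -/
theorem separatingLeft_of_shapiro (hA : 𝒱.IsSmooth A) (hT : ∀ w, (𝒱w w).IsSmooth (T w))
    (hcomp : ∀ w a b, ev' w (m.toLin a b) = (φw w).toLin (ev w a) (ev w b))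
    (hφ : ∀ a b, φ.toLin a b = tr (m.toLin a b))
    (hSh1 : Function.Bijective (Sh₁ hj ev hev))
    (hSh2 : Function.Injective (Sh₂ hj ev' hev'))
    (hΛ : ∀ w, ∃ z : 𝒱.H2 B, (∀ w', w' ≠ w → sh₂ hj ev' hev' w' z = 0) ∧
      Λ (𝒱.H2map tr htr z) ≠ 0)
    (hprop : ∀ w (v c : (𝒱w w).H2 (M w)), v ≠ 0 → ∃ a : k, a • v = c)
    (hloc : ∀ w (x : (𝒱w w).H1 (T w)), (∀ y, cupH11 (φw w) (hT w) x y = 0) → x = 0) :
    ((cupH11 φ hA).compr₂ Λ).SeparatingLeft := by
  intro x hx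
  by_contra hx0
  -- some component of `x` is nonzero
  obtain ⟨w, hw⟩ : ∃ w, sh₁ hj ev hev w x ≠ 0 := by
    by_contra hall
    push Not at hall
    apply hx0
    apply hSh1.1
    rw [map_zero]
    funext w
    exact hall w
  -- local nondegeneracy gives a local partner
  obtain ⟨yw, hyw⟩ : ∃ yw, cupH11 (φw w) (hT w) (sh₁ hj ev hev w x) yw ≠ 0 := by
    by_contra hall
    push Not at hall
    exact hw (hloc w _ hall)
  -- lift the partner, supported at `w`
  obtain ⟨y, hy⟩ := hSh1.2 (Pi.single w yw)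
  have hy_w : sh₁ hj ev hev w y = yw := by
    have := congrFun hy w
    simpa using this
  have hy_ne : ∀ w', w' ≠ w → sh₁ hj ev hev w' y = 0 := by
    intro w' hne
    have := congrFun hy w'
    simpa [Pi.single_eq_of_ne hne] using this
  -- the global cup product `Z`
  set Z := cupH11 m hA x y with hZ
  have hZw : sh₂ hj ev' hev' w Z = cupH11 (φw w) (hT w) (sh₁ hj ev hev w x) yw := by
    rw [hZ, sh₂_cupH11 m hj ev hev ev' hev' φw hA hT hcomp, hy_w]
  have hZne : ∀ w', w' ≠ w → sh₂ hj ev' hev' w' Z = 0 := by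
    intro w' hne
    rw [hZ, sh₂_cupH11 m hj ev hev ev' hev' φw hA hT hcomp, hy_ne w' hne, map_zero]
  -- the reference class supported at `w`
  obtain ⟨z₀, hz₀, hΛz₀⟩ := hΛ w
  have hz₀w : sh₂ hj ev' hev' w z₀ ≠ 0 := by
    intro h0
    apply hΛz₀
    have : z₀ = 0 := by
      apply hSh2
      rw [map_zero]
      funext w'
      by_cases hne : w' = w
      · subst hne; exact h0
      · exact hz₀ w' hne
    rw [this, map_zero, map_zero]
  obtain ⟨a, ha⟩ := hprop w _ (sh₂ hj ev' hev' w Z) hz₀w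
  have hZeq : Z = a • z₀ := by
    apply hSh2
    funext w'
    by_cases hne : w' = w
    · subst hne
      simp only [Sh₂_apply, map_smul]
      exact ha.symm
    · simp only [Sh₂_apply, map_smul, hZne w' hne, hz₀ w' hne, smul_zero]
  have ha0 : a ≠ 0 := by
    rintro rfl
    rw [zero_smul] at ha
    exact hyw (by rw [← hZw, ← ha])
  -- contradiction with `hx`
  have h1 : Λ (cupH11 φ hA x y) = 0 := hx y
  rw [← H2map_tr_cupH11 m tr htr φ hA hφ, ← hZ, hZeq, map_smul, map_smul, smul_eq_mul,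
    mul_eq_zero] at h1
  rcases h1 with h1 | h1
  · exact ha0 h1
  · exact hΛz₀ h1

omit [DecidableEq ι] in
/-- Companion for the dimension count: `dim H¹(𝒱; A) = ∑ w, dim H¹(𝒱w w; T w)`. -/
theorem finrank_H1_eq_sum [Fintype ι] [∀ w, FiniteDimensional k ((𝒱w w).H1 (T w))]
    (hSh1 : Function.Bijective (Sh₁ hj ev hev)) :
    finrank k (𝒱.H1 A) = ∑ w, finrank k ((𝒱w w).H1 (T w)) := by
  have : ∀ w, Module.Free k ((𝒱w w).H1 (T w)) := fun w => Module.Free.of_divisionRing k _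
  rw [← Module.finrank_pi_fintype k]
  exact (LinearEquiv.ofBijective (Sh₁ hj ev hev) hSh1).finrank_eq

/-- `finrank ≤ 1` gives the proportionality hypothesis `hprop`. -/
theorem exists_smul_eq_of_finrank_le_one {V : Type*} [AddCommGroup V] [Module k V]
    [FiniteDimensional k V] (h : finrank k V ≤ 1) (v c : V) (hv : v ≠ 0) : ∃ a : k, a • v = c := by
  obtain ⟨v₀, hv₀⟩ := finrank_le_one_iff.1 h
  obtain ⟨b, hb⟩ := hv₀ v
  obtain ⟨b', hb'⟩ := hv₀ c
  have hb0 : b ≠ 0 := by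
    rintro rfl
    rw [zero_smul] at hb
    exact hv hb.symm
  refine ⟨b' * b⁻¹, ?_⟩
  rw [← hb, smul_smul, mul_assoc, inv_mul_cancel₀ hb0, mul_one, hb']

end Main

/-! ### The hypothesis `hnd` of `Iso.le_finrank_sha1` at one local index -/

section Global

variable {k G : Type u} [Field k] [Group G] {𝒰 : LevelStr G}
variable {A B μ : Rep.{u} k G} (m : Pairing A A B) (tr : B →ₗ[k] μ)
  (htr : LevelStr.IsEquivariant tr) (φ : Pairing A A μ)
variable {ιq : Type*} {Γq : ιq → Type u} [∀ q, Group (Γq q)] {𝒱q : ∀ q, LevelStr (Γq q)}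
  {f : ∀ q, Γq q →* G} (hf : ∀ q, LevelStr.IsContinuous (𝒱q q) 𝒰 (f q))
  (Λ : ∀ q, (𝒱q q).H2 (Rep.res (f q) μ) →ₗ[k] k)
variable (q : ιq) {ι : Type*} [DecidableEq ι] {H : ι → Type u} [∀ w, Group (H w)]
  {𝒱w : ∀ w, LevelStr (H w)} {j : ∀ w, H w →* Γq q}
  (hj : ∀ w, LevelStr.IsContinuous (𝒱w w) (𝒱q q) (j w))
  {T M : ∀ w, Rep.{u} k (H w)}
  (ev : ∀ w, Rep.res (j w) (Rep.res (f q) A) →ₗ[k] T w)
  (hev : ∀ w, LevelStr.IsEquivariant (ev w))
  (ev' : ∀ w, Rep.res (j w) (Rep.res (f q) B) →ₗ[k] M w)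
  (hev' : ∀ w, LevelStr.IsEquivariant (ev' w))
  (φw : ∀ w, Pairing (T w) (T w) (M w))

/-- restriction of an equivariant map is equivariant -/
lemma isEquivariant_res {G' : Type u} [Group G'] (g : G' →* G) {X Y : Rep.{u} k G}
    {t : X →ₗ[k] Y} (ht : LevelStr.IsEquivariant t) :
    LevelStr.IsEquivariant (A := Rep.res g X) (B := Rep.res g Y) t :=
  fun s a => ht (g s) a

/-- **`hnd` of `Iso.le_finrank_sha1` at the local index `q`**, from the local orthogonal
decomposition of `res_q A`, `res_q B` over the family `H w`. -/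
theorem locPair_separatingLeft (hA : 𝒰.IsSmooth A) (hT : ∀ w, (𝒱w w).IsSmooth (T w))
    (hcomp : ∀ w a b, ev' w (m.toLin a b) = (φw w).toLin (ev w a) (ev w b))
    (hφ : ∀ a b, φ.toLin a b = tr (m.toLin a b))
    (hSh1 : Function.Bijective (Sh₁ (A := Rep.res (f q) A) hj ev hev))
    (hSh2 : Function.Injective (Sh₂ (B := Rep.res (f q) B) hj ev' hev'))
    (hΛ : ∀ w, ∃ z : (𝒱q q).H2 (Rep.res (f q) B),
      (∀ w', w' ≠ w → sh₂ (B := Rep.res (f q) B) hj ev' hev' w' z = 0) ∧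
      Λ q ((𝒱q q).H2map (A := Rep.res (f q) B) (B := Rep.res (f q) μ) tr
        (isEquivariant_res (f q) htr) z) ≠ 0)
    (hprop : ∀ w (v c : (𝒱w w).H2 (M w)), v ≠ 0 → ∃ a : k, a • v = c)
    (hloc : ∀ w (x : (𝒱w w).H1 (T w)), (∀ y, cupH11 (φw w) (hT w) x y = 0) → x = 0) :
    (Iso.locPair φ hf Λ hA q).SeparatingLeft :=
  separatingLeft_of_shapiro (A := Rep.res (f q) A) (B := Rep.res (f q) B)
    (μ := Rep.res (f q) μ) (pairingRes m (f q)) hj ev hev ev' hev' φw tr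
    (isEquivariant_res (f q) htr) (Λ q) (pairingRes φ (f q)) ((hf q).isSmooth A hA) hT hcomp hφ
    hSh1 hSh2 hΛ hprop hloc

end Global

end Fermat.Agent.S55.LevelCup47.Ortho
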